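/-
helper23, W10 (S34): abstract (LP) at a crossing point, Mathlib only.

A local equation, modulo vertical components, of a rational point through a crossing point
of a two-component special fibre, WITHOUT any normal form of the node (no thickness, no
completion): approximate normal form `x_N y_N = c_N + π^N b_N` (STEP 0), CLAIM A (a point whose
`x_N`-coordinate has order `< N` has the local equation `x_N - P x_N`), CLAIM B (for large `N`
the two coordinates cannot both have order `≥ N`, because the point is a regular point of the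
generic fibre).
-/
import Mathlib

namespace Fermat.Agent.S34x.Node.H23

open Ideal

variable {R : Type*} [CommRing R] [IsDomain R]

/-- **Lemma F**: division by `π` modulo `(y, π^(k+1))`, when `x y ∈ π^N R`, `k + 1 ≤ N`. -/
theorem h23_lemF (π x y e0 : R) (hπ : π ≠ 0) (N : ℕ) (hxy : x * y = π ^ N * e0)
    (hq2 : (span {x, π} : Ideal R).IsPrime) (hy2 : y ∉ (span {x, π} : Ideal R))
    (k : ℕ) (hk : k + 1 ≤ N) (t : R) (ht : π * t ∈ (span {y, π ^ (k + 1)} : Ideal R)) :
    t ∈ (span {y, π ^ k} : Ideal R) := by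
  rw [Ideal.mem_span_pair] at ht ⊢
  obtain ⟨u, w, huw⟩ := ht
  have hu : u ∈ (span {x, π} : Ideal R) := by
    have h1 : u * y ∈ (span {x, π} : Ideal R) := by
      have h2 : u * y = (t - w * π ^ k) * π := by
        rw [pow_succ] at huw
        linear_combination huw
      rw [h2]
      exact Ideal.mul_mem_left _ _ (Ideal.subset_span (by simp))
    exact (hq2.mem_or_mem h1).resolve_right hy2
  rw [Ideal.mem_span_pair] at hu
  obtain ⟨u1, u2, hu12⟩ := hu
  obtain ⟨n', rfl⟩ : ∃ n', N = k + 1 + n' := ⟨N - (k + 1), by omega⟩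
  refine ⟨u2, w + u1 * π ^ n' * e0, ?_⟩
  apply mul_left_cancel₀ hπ
  rw [← huw, ← hu12]
  rw [pow_add, pow_succ] at hxy
  rw [pow_succ]
  linear_combination (-u1) * hxy

/-- iterate Lemma F: `π^j t ∈ (y, π^(j+1))` implies `t ∈ (y, π)`. -/
theorem h23_lemF_iter (π x y e0 : R) (hπ : π ≠ 0) (N : ℕ) (hxy : x * y = π ^ N * e0)
    (hq2 : (span {x, π} : Ideal R).IsPrime) (hy2 : y ∉ (span {x, π} : Ideal R))
    (j : ℕ) (hj : j + 1 ≤ N) (t : R) (ht : π ^ j * t ∈ (span {y, π ^ (j + 1)} : Ideal R)) :
    t ∈ (span {y, π} : Ideal R) := by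
  induction j generalizing t with
  | zero => simpa using ht
  | succ j ih =>
    have h1 : π * (π ^ j * t) ∈ (span {y, π ^ (j + 1 + 1)} : Ideal R) := by
      have : π * (π ^ j * t) = π ^ (j + 1) * t := by ring
      rw [this]; exact ht
    have h2 := h23_lemF π x y e0 hπ N hxy hq2 hy2 (j + 1) hj _ h1
    exact ih (by omega) t h2

/-- **Lemma G**: `x` is a non-zero-divisor modulo `(y, π^k)` for `k ≤ N`. -/
theorem h23_lemG (π x y e0 : R) (hπ : π ≠ 0) (N : ℕ) (hxy : x * y = π ^ N * e0)
    (hq1 : (span {y, π} : Ideal R).IsPrime) (hx1 : x ∉ (span {y, π} : Ideal R))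
    (hq2 : (span {x, π} : Ideal R).IsPrime) (hy2 : y ∉ (span {x, π} : Ideal R))
    (k : ℕ) (hk : k ≤ N) (z : R) (hz : x * z ∈ (span {y, π ^ k} : Ideal R)) :
    z ∈ (span {y, π ^ k} : Ideal R) := by
  induction k with
  | zero =>
    have : (span {y, π ^ 0} : Ideal R) = ⊤ := by
      rw [pow_zero]; exact Ideal.eq_top_of_isUnit_mem _ (Ideal.subset_span (by simp)) isUnit_one
    rw [this]; trivial
  | succ k ih =>
    have hle : (span {y, π ^ (k + 1)} : Ideal R) ≤ span {y, π ^ k} := by
      rw [Ideal.span_le]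
      rintro a (rfl | rfl)
      · exact Ideal.subset_span (by simp)
      · rw [pow_succ]; exact Ideal.mul_mem_right _ _ (Ideal.subset_span (by simp))
    have h1 := ih (by omega) (hle hz)
    rw [Ideal.mem_span_pair] at h1
    obtain ⟨z1, z2, hz12⟩ := h1
    -- π^k * (x * z2) ∈ (y, π^(k+1))
    have h2 : π ^ k * (x * z2) ∈ (span {y, π ^ (k + 1)} : Ideal R) := by
      have : π ^ k * (x * z2) = x * z - (x * z1) * y := by rw [← hz12]; ring
      rw [this]
      exact Ideal.sub_mem _ hz (Ideal.mul_mem_left _ _ (Ideal.subset_span (by simp)))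
    have h3 := h23_lemF_iter π x y e0 hπ N hxy hq2 hy2 k hk _ h2
    have h4 : z2 ∈ (span {y, π} : Ideal R) := (hq1.mem_or_mem h3).resolve_left hx1
    rw [Ideal.mem_span_pair] at h4
    obtain ⟨z3, z4, hz34⟩ := h4
    rw [Ideal.mem_span_pair]
    refine ⟨z1 + z3 * π ^ k, z4, ?_⟩
    rw [← hz12, ← hz34, pow_succ]; ring


section Point

variable {O : Type*} [CommRing O] [IsDomain O] [Algebra O R]

/-- the kernel of a section `P` centred at `(x, y, π)` is generated by `x - P x`, `y - P y`. -/
theorem h23_ker [IsLocalRing R] [IsNoetherianRing R] (π : O) (x y : R) (P : R →ₐ[O] O)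
    (hπ : π ≠ 0)
    (hm : IsLocalRing.maximalIdeal R = span {x, y, algebraMap O R π})
    (hres : ∀ r : R, ∃ c : O, r - algebraMap O R c ∈ IsLocalRing.maximalIdeal R)
    (hPx : π ∣ P x) (hPy : π ∣ P y) :
    RingHom.ker (P : R →+* O) =
      span {x - algebraMap O R (P x), y - algebraMap O R (P y)} := by
  apply le_antisymm
  · have hfg : (RingHom.ker (P : R →+* O)).FG := (isNoetherianRing_iff_ideal_fg R).mp ‹_› _
    have hjac : (span {algebraMap O R π} : Ideal R) ≤ Ideal.jacobson ⊥ := by
      rw [IsLocalRing.jacobson_eq_maximalIdeal ⊥ bot_ne_top, hm, Ideal.span_le]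
      rintro a rfl
      exact Ideal.subset_span (by simp)
    refine Submodule.le_of_le_smul_of_le_jacobson_bot hfg hjac ?_
    intro z hz
    rw [RingHom.mem_ker] at hz
    obtain ⟨c, hc⟩ := hres z
    rw [hm, Ideal.span, Submodule.mem_span_triple] at hc
    obtain ⟨a, b, e, habe⟩ := hc
    obtain ⟨X', hX'⟩ := hPx
    obtain ⟨Y', hY'⟩ := hPy
    have hz2 : z = algebraMap O R c + a * x + b * y + e * algebraMap O R π := by
      linear_combination -habe
    -- P z = 0 gives c = π * c'
    have hPz : c + P a * (π * X') + P b * (π * Y') + P e * π = 0 := by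
      have := congrArg P hz2
      simp only [map_add, map_mul, AlgHom.commutes, Algebra.algebraMap_self_apply, hX', hY'] at this
      rw [← this]; exact hz.symm ▸ rfl
    set c' : O := -(P a * X' + P b * Y' + P e) with hc'
    have hcc' : c = π * c' := by rw [hc']; linear_combination hPz
    set z1 : R := algebraMap O R c' + a * algebraMap O R X' + b * algebraMap O R Y' + e with hz1
    have hzz1 : z = a * (x - algebraMap O R (P x)) + b * (y - algebraMap O R (P y))
        + algebraMap O R π * z1 := by
      rw [hz2, hcc', hX', hY', hz1]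
      simp only [map_mul]
      ring
    have hPz1 : P z1 = 0 := by
      have h1 : π * P z1 = 0 := by
        have := congrArg P hzz1
        simp only [map_add, map_mul, map_sub, AlgHom.commutes, Algebra.algebraMap_self_apply,
          sub_self, mul_zero, zero_add] at this
        rw [← this]; exact hz
      exact (mul_eq_zero.mp h1).resolve_left hπ
    rw [hzz1]
    refine Submodule.add_mem_sup ?_ ?_
    · exact Ideal.add_mem _ (Ideal.mul_mem_left _ _ (Ideal.subset_span (by simp)))
        (Ideal.mul_mem_left _ _ (Ideal.subset_span (by simp)))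
    · exact Submodule.smul_mem_smul (Ideal.subset_span (by simp)) (RingHom.mem_ker.mpr hPz1)
  · rw [Ideal.span_le]
    rintro a (rfl | rfl)
    · simp [RingHom.mem_ker]
    · simp [RingHom.mem_ker]


/-- `P` maps the maximal ideal into `π O`. -/
theorem h23_P_max [IsLocalRing R] (π : O) (x y : R) (P : R →ₐ[O] O)
    (hm : IsLocalRing.maximalIdeal R = span {x, y, algebraMap O R π})
    (hPx : π ∣ P x) (hPy : π ∣ P y) (z : R) (hz : z ∈ IsLocalRing.maximalIdeal R) :
    π ∣ P z := by
  rw [hm, Ideal.span, Submodule.mem_span_triple] at hz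
  obtain ⟨a, b, e, rfl⟩ := hz
  simp only [smul_eq_mul, map_add, map_mul, AlgHom.commutes, Algebra.algebraMap_self_apply]
  exact dvd_add (dvd_add (Dvd.dvd.mul_left hPx _) (Dvd.dvd.mul_left hPy _))
    (Dvd.intro_left _ rfl)

/-- **CLAIM A**: if the `x`-coordinate of `P` has order `i < N` and `x y = c + π^N b`, then
`x - P x` is a local equation of `P` modulo vertical components. -/
theorem h23_claimA [IsLocalRing R] (π : O) (x y : R) (P : R →ₐ[O] O)
    (hm : IsLocalRing.maximalIdeal R = span {x, y, algebraMap O R π})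
    (hPx : π ∣ P x) (hPy : π ∣ P y)
    (hker : RingHom.ker (P : R →+* O) =
      span {x - algebraMap O R (P x), y - algebraMap O R (P y)})
    (N : ℕ) (c : O) (b : R) (hxy : x * y = algebraMap O R c + algebraMap O R π ^ N * b)
    (i : ℕ) (hi : i < N) (w : O) (hw : ¬ π ∣ w) (hX : P x = π ^ i * w) :
    ∀ z : R, P z = 0 → (x - algebraMap O R (P x)) ∣ algebraMap O R π ^ i * z := by
  -- `ι w` is a unit
  have hwu : IsUnit (algebraMap O R w) := by
    by_contra hnu
    have : algebraMap O R w ∈ IsLocalRing.maximalIdeal R := (IsLocalRing.mem_maximalIdeal _).mpr hnu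
    have h2 := h23_P_max π x y P hm hPx hPy _ this
    rw [AlgHom.commutes] at h2
    exact hw h2
  have hb : b - algebraMap O R (P b) ∈ RingHom.ker (P : R →+* O) := by
    simp [RingHom.mem_ker]
  rw [hker, Ideal.mem_span_pair] at hb
  obtain ⟨α, β, hαβ⟩ := hb
  obtain ⟨n', rfl⟩ : ∃ n', N = i + (n' + 1) := ⟨N - i - 1, by omega⟩
  -- the unit
  have hu : IsUnit (algebraMap O R w - algebraMap O R π ^ (n' + 1) * β) := by
    by_contra hnu
    have h1 : algebraMap O R w - algebraMap O R π ^ (n' + 1) * β ∈ IsLocalRing.maximalIdeal R :=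
      (IsLocalRing.mem_maximalIdeal _).mpr hnu
    have h2 : algebraMap O R π ^ (n' + 1) * β ∈ IsLocalRing.maximalIdeal R := by
      rw [pow_succ, mul_assoc]
      refine Ideal.mul_mem_left _ _ (Ideal.mul_mem_right _ _ ?_)
      rw [hm]; exact Ideal.subset_span (by simp)
    have h3 : algebraMap O R w ∈ IsLocalRing.maximalIdeal R := by
      have := Ideal.add_mem _ h1 h2
      simpa using this
    exact (IsLocalRing.mem_maximalIdeal _).mp h3 hwu
  obtain ⟨u, hu⟩ := hu
  -- apply `P` to the equation
  have hPxy : P x * P y = c + π ^ (i + (n' + 1)) * P b := by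
    have := congrArg P hxy
    simpa only [map_add, map_mul, map_pow, AlgHom.commutes, Algebra.algebraMap_self_apply]
      using this
  have hPxy' : algebraMap O R (P x) * algebraMap O R (P y)
      = algebraMap O R c + algebraMap O R π ^ (i + (n' + 1)) * algebraMap O R (P b) := by
    rw [← map_mul, hPxy, map_add, map_mul, map_pow]
  have hXR : algebraMap O R (P x) = algebraMap O R π ^ i * algebraMap O R w := by
    rw [hX, map_mul, map_pow]
  -- key identity
  have key : (y - algebraMap O R (P y)) * (algebraMap O R π ^ i * (u : R))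
      = (x - algebraMap O R (P x)) * (algebraMap O R π ^ (i + (n' + 1)) * α - y) := by
    rw [hu]
    rw [pow_add] at hxy hPxy' ⊢
    linear_combination hxy - hPxy'
      - (algebraMap O R π ^ i * algebraMap O R π ^ (n' + 1)) * hαβ
      - (y - algebraMap O R (P y)) * hXR
  have hη' : algebraMap O R π ^ i * (y - algebraMap O R (P y))
      = (x - algebraMap O R (P x)) *
        ((algebraMap O R π ^ (i + (n' + 1)) * α - y) * ((u⁻¹ : Rˣ) : R)) := by
    have hu1 : (u : R) * ((u⁻¹ : Rˣ) : R) = 1 := by simp
    linear_combination ((u⁻¹ : Rˣ) : R) * key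
      - (algebraMap O R π ^ i * (y - algebraMap O R (P y))) * hu1
  intro z hz
  have hzk : z ∈ RingHom.ker (P : R →+* O) := RingHom.mem_ker.mpr hz
  rw [hker, Ideal.mem_span_pair] at hzk
  obtain ⟨a, b', rfl⟩ := hzk
  refine ⟨algebraMap O R π ^ i * a
    + b' * ((algebraMap O R π ^ (i + (n' + 1)) * α - y) * ((u⁻¹ : Rˣ) : R)), ?_⟩
  linear_combination b' * hη'


/-- **CLAIM B**: if both coordinates of `P` have order `≥ N` in an approximate normal form of
order `N ≥ 1`, then `π^N ∣ P r` for every `r` as in (REG_P). -/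
theorem h23_claimB (π : O) (hπ : π ≠ 0) (x y : R) (P : R →ₐ[O] O)
    (hq1 : (span {y, algebraMap O R π} : Ideal R).IsPrime)
    (hx1 : x ∉ (span {y, algebraMap O R π} : Ideal R))
    (hq2 : (span {x, algebraMap O R π} : Ideal R).IsPrime)
    (hy2 : y ∉ (span {x, algebraMap O R π} : Ideal R))
    (hker : RingHom.ker (P : R →+* O) =
      span {x - algebraMap O R (P x), y - algebraMap O R (P y)})
    (N : ℕ) (hN : 1 ≤ N) (c : O) (b : R)
    (hxy : x * y = algebraMap O R c + algebraMap O R π ^ N * b)
    (hXN : π ^ N ∣ P x) (hYN : π ^ N ∣ P y)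
    (ϖ r : R) (hϖ : P ϖ = 0) (hreg : ∀ z : R, P z = 0 → ϖ ∣ r * z) :
    π ^ N ∣ P r := by
  have hinj : Function.Injective (algebraMap O R) := by
    intro a b hab
    have := congrArg P hab
    simpa only [AlgHom.commutes, Algebra.algebraMap_self_apply] using this
  have hπR : algebraMap O R π ≠ 0 := fun h => hπ (hinj (by rw [h, map_zero]))
  obtain ⟨X', hX'⟩ := hXN
  obtain ⟨Y', hY'⟩ := hYN
  have hXR : algebraMap O R (P x) = algebraMap O R π ^ N * algebraMap O R X' := by
    rw [hX', map_mul, map_pow]
  have hYR : algebraMap O R (P y) = algebraMap O R π ^ N * algebraMap O R Y' := by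
    rw [hY', map_mul, map_pow]
  have hPxy : P x * P y = c + π ^ N * P b := by
    have := congrArg P hxy
    simpa only [map_add, map_mul, map_pow, AlgHom.commutes, Algebra.algebraMap_self_apply]
      using this
  have hc : c = π ^ N * (π ^ N * X' * Y' - P b) := by
    rw [hX', hY'] at hPxy
    linear_combination (-1 : O) * hPxy
  have hxy' : x * y = algebraMap O R π ^ N *
      (algebraMap O R (π ^ N * X' * Y' - P b) + b) := by
    rw [hxy, hc, map_mul, map_pow]
    ring
  have hyx' : y * x = algebraMap O R π ^ N *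
      (algebraMap O R (π ^ N * X' * Y' - P b) + b) := by rw [mul_comm, hxy']
  have hPξ : P (x - algebraMap O R (P x)) = 0 := by simp
  have hPη : P (y - algebraMap O R (P y)) = 0 := by simp
  by_cases hϖ0 : ϖ = 0
  · by_cases hr0 : r = 0
    · rw [hr0, map_zero]; exact dvd_zero _
    · exfalso
      obtain ⟨g, hg⟩ := hreg _ hPξ
      rw [hϖ0, zero_mul] at hg
      have hξ0 : x - algebraMap O R (P x) = 0 := (mul_eq_zero.mp hg).resolve_left hr0
      apply hx1
      have : x = algebraMap O R (P x) := sub_eq_zero.mp hξ0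
      rw [this, hXR]
      obtain ⟨n', rfl⟩ : ∃ n', N = n' + 1 := ⟨N - 1, by omega⟩
      rw [pow_succ, mul_assoc]
      exact Ideal.mul_mem_left _ _ (Ideal.mul_mem_right _ _ (Ideal.subset_span (by simp)))
  · obtain ⟨g, hg⟩ := hreg _ hPξ
    obtain ⟨h, hh⟩ := hreg _ hPη
    have hrel : h * (x - algebraMap O R (P x)) = g * (y - algebraMap O R (P y)) := by
      apply mul_left_cancel₀ hϖ0
      linear_combination (-(x - algebraMap O R (P x))) * hh + (y - algebraMap O R (P y)) * hg
    have hϖk : ϖ ∈ RingHom.ker (P : R →+* O) := RingHom.mem_ker.mpr hϖ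
    rw [hker, Ideal.mem_span_pair] at hϖk
    obtain ⟨A, B, hAB⟩ := hϖk
    have hr : r = A * g + B * h := by
      apply mul_left_cancel₀ hϖ0
      linear_combination (-r) * hAB + A * hg + B * hh
    -- `x h ∈ (y, π^N)`
    have h1 : x * h ∈ (span {y, algebraMap O R π ^ N} : Ideal R) := by
      rw [Ideal.mem_span_pair]
      refine ⟨g, algebraMap O R X' * h - algebraMap O R Y' * g, ?_⟩
      linear_combination (-1 : R) * hrel - h * hXR + g * hYR
    have h2 : y * g ∈ (span {x, algebraMap O R π ^ N} : Ideal R) := by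
      rw [Ideal.mem_span_pair]
      refine ⟨h, algebraMap O R Y' * g - algebraMap O R X' * h, ?_⟩
      linear_combination hrel + h * hXR - g * hYR
    have h3 := h23_lemG (algebraMap O R π) x y _ hπR N hxy' hq1 hx1 hq2 hy2 N le_rfl h h1
    have h4 := h23_lemG (algebraMap O R π) y x _ hπR N hyx' hq2 hy2 hq1 hx1 N le_rfl g h2
    rw [Ideal.mem_span_pair] at h3 h4
    obtain ⟨h31, h32, h3e⟩ := h3
    obtain ⟨g41, g42, g4e⟩ := h4
    have hPh : π ^ N ∣ P h := by
      rw [← h3e]
      simp only [map_add, map_mul, map_pow, AlgHom.commutes, Algebra.algebraMap_self_apply, hY']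
      exact dvd_add (Dvd.intro _ (by ring : π ^ N * (P h31 * Y') = P h31 * (π ^ N * Y')))
        (Dvd.intro_left _ rfl)
    have hPg : π ^ N ∣ P g := by
      rw [← g4e]
      simp only [map_add, map_mul, map_pow, AlgHom.commutes, Algebra.algebraMap_self_apply, hX']
      exact dvd_add (Dvd.intro _ (by ring : π ^ N * (P g41 * X') = P g41 * (π ^ N * X')))
        (Dvd.intro_left _ rfl)
    rw [hr, map_add, map_mul, map_mul]
    exact dvd_add (Dvd.dvd.mul_left hPg _) (Dvd.dvd.mul_left hPh _)

/-- **STEP 0**: approximate normal forms of every order. -/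
theorem h23_step0 [IsLocalRing R] (π : O) (x y : R)
    (hm : IsLocalRing.maximalIdeal R = span {x, y, algebraMap O R π})
    (hres : ∀ r : R, ∃ c : O, r - algebraMap O R c ∈ IsLocalRing.maximalIdeal R)
    (a0 : R) (hxy0 : x * y = algebraMap O R π * a0) (N : ℕ) (hN : 1 ≤ N) :
    ∃ (s t : R) (c : O) (b : R),
      (x + algebraMap O R π * s) * (y + algebraMap O R π * t)
        = algebraMap O R c + algebraMap O R π ^ N * b := by
  induction N, hN using Nat.le_induction with
  | base =>
    refine ⟨0, 0, 0, a0, ?_⟩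
    rw [mul_zero, add_zero, add_zero, map_zero, zero_add, pow_one, hxy0]
  | succ N hN ih =>
    obtain ⟨s, t, c, b, hstcb⟩ := ih
    obtain ⟨β0, hβ0⟩ := hres b
    rw [hm, Ideal.span, Submodule.mem_span_triple] at hβ0
    obtain ⟨a1, a2, a3, ha⟩ := hβ0
    simp only [smul_eq_mul] at ha
    obtain ⟨n', rfl⟩ : ∃ n', N = n' + 1 := ⟨N - 1, by omega⟩
    refine ⟨s - algebraMap O R π ^ n' * a2, t - algebraMap O R π ^ n' * a1,
      c + π ^ (n' + 1) * β0,
      (a3 - a1 * s - a2 * t) + algebraMap O R π ^ n' * (a1 * a2), ?_⟩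
    rw [map_add, map_mul, map_pow]
    rw [pow_succ] at hstcb ⊢
    rw [pow_succ]
    linear_combination hstcb - (algebraMap O R π ^ n' * algebraMap O R π) * ha

/-- order of an element not divisible by `π^N`. -/
theorem h23_ord (π : O) (N : ℕ) (X : O) (hX : ¬ π ^ N ∣ X) :
    ∃ i, i < N ∧ ∃ w : O, ¬ π ∣ w ∧ X = π ^ i * w := by
  induction N with
  | zero => exact absurd (by rw [pow_zero]; exact one_dvd _) hX
  | succ N ih =>
    by_cases h : π ^ N ∣ X
    · obtain ⟨w, hw⟩ := h
      refine ⟨N, Nat.lt_succ_self N, w, ?_, hw⟩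
      rintro ⟨w', rfl⟩
      apply hX
      exact ⟨w', by rw [hw, pow_succ]; ring⟩
    · obtain ⟨i, hi, w, hw, hXw⟩ := ih h
      exact ⟨i, Nat.lt_succ_of_lt hi, w, hw, hXw⟩


/-- **(LP) at a crossing point** (local-ring form). `R` a noetherian local domain over `O`,
maximal ideal `(x, y, π)`, `x y ∈ π R`, the two vertical primes `(y, π)`, `(x, π)`, residue
field `O / π`; `P : R → O` an `O`-section centred at the closed point, regular on the generic
fibre (REG_P): `ϖ ∈ ker P`, `r ∉ ker P`, `r · ker P ⊆ ϖ R`. Then `P` has a local equation `d`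
modulo vertical components: `d ∈ ker P` and `π^i · ker P ⊆ d R`. Moreover `d = x' - P x'` or
`d = y' - P y'` with `x' ≡ x`, `y' ≡ y` modulo `π`. -/
theorem h23_node_lp_aux [IsLocalRing R] [IsNoetherianRing R] (π : O) (hπ : π ≠ 0)
    (hsep : ∀ c : O, c ≠ 0 → ∃ N : ℕ, ¬ π ^ N ∣ c) (x y : R)
    (hm : IsLocalRing.maximalIdeal R = span {x, y, algebraMap O R π})
    (hres : ∀ r : R, ∃ c : O, r - algebraMap O R c ∈ IsLocalRing.maximalIdeal R)
    (hxy : algebraMap O R π ∣ x * y)
    (hq1 : (span {y, algebraMap O R π} : Ideal R).IsPrime)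
    (hx1 : x ∉ (span {y, algebraMap O R π} : Ideal R))
    (hq2 : (span {x, algebraMap O R π} : Ideal R).IsPrime)
    (hy2 : y ∉ (span {x, algebraMap O R π} : Ideal R))
    (P : R →ₐ[O] O) (hPx : π ∣ P x) (hPy : π ∣ P y)
    (ϖ r : R) (hϖ : P ϖ = 0) (hr : P r ≠ 0) (hreg : ∀ z : R, P z = 0 → ϖ ∣ r * z) :
    ∃ (d : R) (i : ℕ), P d = 0 ∧ (∀ z : R, P z = 0 → d ∣ algebraMap O R π ^ i * z) ∧
      ((∃ s : R, d = (x + algebraMap O R π * s) - algebraMap O R (P (x + algebraMap O R π * s))) ∨
       (∃ t : R, d = (y + algebraMap O R π * t) - algebraMap O R (P (y + algebraMap O R π * t)))) := by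
  obtain ⟨N, hN⟩ := hsep (P r) hr
  have hN1 : 1 ≤ N := by
    rcases Nat.eq_zero_or_pos N with h0 | h0
    · exact absurd (by rw [h0, pow_zero]; exact one_dvd _) hN
    · exact h0
  obtain ⟨a0, ha0⟩ := hxy
  obtain ⟨s, t, c, b, hstcb⟩ := h23_step0 π x y hm hres a0 ha0 N hN1
  -- the node data for `x' = x + π s`, `y' = y + π t`
  have e1 : (span {y + algebraMap O R π * t, algebraMap O R π} : Ideal R)
      = span {y, algebraMap O R π} := by
    rw [mul_comm]; exact Ideal.span_pair_add_mul_right _ _ _
  have e2 : (span {x + algebraMap O R π * s, algebraMap O R π} : Ideal R)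
      = span {x, algebraMap O R π} := by
    rw [mul_comm]; exact Ideal.span_pair_add_mul_right _ _ _
  have hπ1 : algebraMap O R π ∈ (span {y, algebraMap O R π} : Ideal R) :=
    Ideal.subset_span (by simp)
  have hπ2 : algebraMap O R π ∈ (span {x, algebraMap O R π} : Ideal R) :=
    Ideal.subset_span (by simp)
  have hx1' : x + algebraMap O R π * s ∉ (span {y, algebraMap O R π} : Ideal R) := by
    intro h
    apply hx1
    have := Ideal.sub_mem _ h (Ideal.mul_mem_right s _ hπ1)
    simpa using this
  have hy2' : y + algebraMap O R π * t ∉ (span {x, algebraMap O R π} : Ideal R) := by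
    intro h
    apply hy2
    have := Ideal.sub_mem _ h (Ideal.mul_mem_right t _ hπ2)
    simpa using this
  have hm' : IsLocalRing.maximalIdeal R
      = span {x + algebraMap O R π * s, y + algebraMap O R π * t, algebraMap O R π} := by
    rw [hm]
    apply le_antisymm
    · rw [Ideal.span_le]
      rintro a (rfl | rfl | rfl)
      · have h1 : a + algebraMap O R π * s ∈ (span {a + algebraMap O R π * s,
            y + algebraMap O R π * t, algebraMap O R π} : Ideal R) :=
          Ideal.subset_span (by simp)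
        have h2 : algebraMap O R π ∈ (span {a + algebraMap O R π * s,
            y + algebraMap O R π * t, algebraMap O R π} : Ideal R) :=
          Ideal.subset_span (by simp)
        have := Ideal.sub_mem _ h1 (Ideal.mul_mem_right s _ h2)
        simpa using this
      · have h1 : a + algebraMap O R π * t ∈ (span {x + algebraMap O R π * s,
            a + algebraMap O R π * t, algebraMap O R π} : Ideal R) :=
          Ideal.subset_span (by simp)
        have h2 : algebraMap O R π ∈ (span {x + algebraMap O R π * s,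
            a + algebraMap O R π * t, algebraMap O R π} : Ideal R) :=
          Ideal.subset_span (by simp)
        have := Ideal.sub_mem _ h1 (Ideal.mul_mem_right t _ h2)
        simpa using this
      · exact Ideal.subset_span (by simp)
    · rw [Ideal.span_le]
      have h0 : algebraMap O R π ∈ (span {x, y, algebraMap O R π} : Ideal R) :=
        Ideal.subset_span (by simp)
      rintro a (rfl | rfl | rfl)
      · exact Ideal.add_mem _ (Ideal.subset_span (by simp)) (Ideal.mul_mem_right _ _ h0)
      · exact Ideal.add_mem _ (Ideal.subset_span (by simp)) (Ideal.mul_mem_right _ _ h0)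
      · exact h0
  have hPx' : π ∣ P (x + algebraMap O R π * s) := by
    rw [map_add, map_mul, AlgHom.commutes]
    exact dvd_add hPx (Dvd.intro _ rfl)
  have hPy' : π ∣ P (y + algebraMap O R π * t) := by
    rw [map_add, map_mul, AlgHom.commutes]
    exact dvd_add hPy (Dvd.intro _ rfl)
  have hker := h23_ker π (x + algebraMap O R π * s) (y + algebraMap O R π * t) P hπ hm' hres
    hPx' hPy'
  have hB := h23_claimB π hπ (x + algebraMap O R π * s) (y + algebraMap O R π * t) P
    (e1 ▸ hq1) (by rw [e1]; exact hx1') (e2 ▸ hq2) (by rw [e2]; exact hy2') hker N hN1 c b hstcb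
  by_cases hXN : π ^ N ∣ P (x + algebraMap O R π * s)
  · have hYN : ¬ π ^ N ∣ P (y + algebraMap O R π * t) := fun h =>
      hN (hB hXN h ϖ r hϖ hreg)
    obtain ⟨i, hi, w, hw, hY⟩ := h23_ord π N _ hYN
    have hm'' : IsLocalRing.maximalIdeal R
        = span {y + algebraMap O R π * t, x + algebraMap O R π * s, algebraMap O R π} := by
      rw [hm']
      congr 1
      ext a
      simp only [Set.mem_insert_iff, Set.mem_singleton_iff]
      tauto
    have hker'' : RingHom.ker (P : R →+* O) =
        span {(y + algebraMap O R π * t) - algebraMap O R (P (y + algebraMap O R π * t)),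
          (x + algebraMap O R π * s) - algebraMap O R (P (x + algebraMap O R π * s))} := by
      rw [hker, Ideal.span_pair_comm]
    have hA := h23_claimA π (y + algebraMap O R π * t) (x + algebraMap O R π * s) P hm''
      hPy' hPx' hker'' N c b (by rw [mul_comm]; exact hstcb) i hi w hw hY
    exact ⟨_, i, by simp, hA, Or.inr ⟨t, rfl⟩⟩
  · obtain ⟨i, hi, w, hw, hX⟩ := h23_ord π N _ hXN
    have hA := h23_claimA π (x + algebraMap O R π * s) (y + algebraMap O R π * t) P hm'
      hPx' hPy' hker N c b hstcb i hi w hw hX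
    exact ⟨_, i, by simp, hA, Or.inl ⟨s, rfl⟩⟩

end Point

end Fermat.Agent.S34x.Node.H23
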