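/-
helper23, W10 (S34): (LP) at a crossing point, CHART form (element form on a noetherian domain
`B` with a prime `n`), by localisation at `n` and `h23_node_lp_aux`. Mathlib only.
-/
import Fermat.Agent.S34x.Node.H23_NodeLP

namespace Fermat.Agent.S34x.Node.H23

open Ideal

section Chart

variable {O B : Type*} [CommRing O] [IsDomain O] [CommRing B] [IsDomain B] [IsNoetherianRing B]
  [Algebra O B]

/-- **(LP) at a crossing point, chart form.** `B` a noetherian domain over `O` (the chart),
`n` a prime of `B` (the closed point), `x, y ∈ n` generating `n B_n` together with `π`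
(`hgen`), residue field `O / π` (`hres`), `x y ∈ π B_n` (`hxy`), the two vertical primes
`q1 = (y, π)`, `q2 = (x, π)` locally at `n` (`hgen1`, `hgen2`), `ev : B → O` the evaluation at a
rational point centred at `n` (`hev`), regular on the generic fibre (`hreg`). Then there is
`d ∈ B`, `d ≠ 0`, vanishing at the point, such that every `z ∈ B` vanishing at the point is
`d * g / (s * π^i)` with `g ∈ B`, `s ∉ n`. -/
theorem h23_node_lp (n : Ideal B) [hn : n.IsPrime] (π : O) (hπ : π ≠ 0)
    (hsep : ∀ c : O, c ≠ 0 → ∃ N : ℕ, ¬ π ^ N ∣ c)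
    (hOloc : ∀ c : O, ¬ π ∣ c → IsUnit c)
    (x y : B)
    (hxn : x ∈ n) (hyn : y ∈ n) (hπn : algebraMap O B π ∈ n)
    (hgen : ∀ b ∈ n, ∃ s ∉ n, ∃ a1 a2 a3 : B, s * b = a1 * x + a2 * y + a3 * algebraMap O B π)
    (hres : ∀ b : B, ∃ c : O, b - algebraMap O B c ∈ n)
    (hxy : ∃ s ∉ n, ∃ a : B, s * (x * y) = algebraMap O B π * a)
    (q1 q2 : Ideal B) [hq1 : q1.IsPrime] [hq2 : q2.IsPrime] (hq1n : q1 ≤ n) (hq2n : q2 ≤ n)
    (hyq1 : y ∈ q1) (hπq1 : algebraMap O B π ∈ q1) (hxq1 : x ∉ q1)
    (hgen1 : ∀ b ∈ q1, ∃ s ∉ n, ∃ a1 a2 : B, s * b = a1 * y + a2 * algebraMap O B π)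
    (hxq2 : x ∈ q2) (hπq2 : algebraMap O B π ∈ q2) (hyq2 : y ∉ q2)
    (hgen2 : ∀ b ∈ q2, ∃ s ∉ n, ∃ a1 a2 : B, s * b = a1 * x + a2 * algebraMap O B π)
    (ev : B →ₐ[O] O) (hev : ∀ b : B, b ∈ n ↔ π ∣ ev b)
    (ϖ r : B) (hϖ : ev ϖ = 0) (hr : ev r ≠ 0)
    (hreg : ∀ z : B, ev z = 0 → ∃ s ∉ n, ∃ g : B, s * (r * z) = ϖ * g) :
    ∃ (d : B) (i : ℕ), d ≠ 0 ∧ ev d = 0 ∧
      ∀ z : B, ev z = 0 → ∃ s ∉ n, ∃ g : B, s * (algebraMap O B π ^ i * z) = d * g := by
  classical
  have hle : n.primeCompl ≤ nonZeroDivisors B := by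
    intro s hs
    exact mem_nonZeroDivisors_of_ne_zero (fun h => hs (h ▸ n.zero_mem))
  have : IsDomain (Localization.AtPrime n) := IsLocalization.isDomain_localization hle
  have : IsNoetherianRing (Localization.AtPrime n) :=
    IsLocalization.isNoetherianRing n.primeCompl _ inferInstance
  have hinj : Function.Injective (algebraMap B (Localization.AtPrime n)) :=
    IsLocalization.injective _ hle
  have hunit : ∀ s : n.primeCompl, IsUnit (ev (s : B)) :=
    fun s => hOloc _ (fun h => s.2 ((hev _).mpr h))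
  set ι := algebraMap B (Localization.AtPrime n) with hι
  have hunitR : ∀ s : B, s ∉ n → IsUnit (ι s) := fun s hs =>
    IsLocalization.map_units (Localization.AtPrime n) (⟨s, hs⟩ : n.primeCompl)
  let P : Localization.AtPrime n →ₐ[O] O :=
    IsLocalization.liftAlgHom (M := n.primeCompl) (f := ev) hunit
  have hP : ∀ b : B, P (ι b) = ev b := fun b => by
    simp only [P, IsLocalization.coe_liftAlgHom]
    exact IsLocalization.lift_eq _ _
  have hπR : algebraMap O (Localization.AtPrime n) π = ι (algebraMap O B π) :=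
    IsScalarTower.algebraMap_apply O B (Localization.AtPrime n) π
  -- every element of `R` is `ι b * (ι s)⁻¹`
  have hsurj : ∀ z : Localization.AtPrime n, ∃ b s : B, s ∉ n ∧ z * ι s = ι b := by
    intro z
    obtain ⟨b, s, hbs⟩ := IsLocalization.exists_mk'_eq n.primeCompl z
    exact ⟨b, s, s.2, by rw [← hbs]; exact IsLocalization.mk'_spec _ _ _⟩
  -- the maximal ideal
  have hmax : IsLocalRing.maximalIdeal (Localization.AtPrime n)
      = span {ι x, ι y, algebraMap O (Localization.AtPrime n) π} := by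
    have hmax0 : IsLocalRing.maximalIdeal (Localization.AtPrime n) = Ideal.map ι n :=
      (Localization.AtPrime.map_eq_maximalIdeal (I := n)).symm
    rw [hmax0, hπR]
    apply le_antisymm
    · rw [Ideal.map_le_iff_le_comap]
      intro b hb
      obtain ⟨s, hs, a1, a2, a3, h⟩ := hgen b hb
      rw [Ideal.mem_comap]
      obtain ⟨u, hu⟩ := hunitR s hs
      have h' : ι b = (u⁻¹ : (Localization.AtPrime n)ˣ) *
          (ι a1 * ι x + ι a2 * ι y + ι a3 * ι (algebraMap O B π)) := by
        have := congrArg ι h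
        simp only [map_mul, map_add] at this
        rw [← this, ← hu, ← mul_assoc, Units.inv_mul, one_mul]
      rw [h']
      refine Ideal.mul_mem_left _ _ (Ideal.add_mem _ (Ideal.add_mem _ ?_ ?_) ?_)
      · exact Ideal.mul_mem_left _ _ (Ideal.subset_span (by simp))
      · exact Ideal.mul_mem_left _ _ (Ideal.subset_span (by simp))
      · exact Ideal.mul_mem_left _ _ (Ideal.subset_span (by simp))
    · rw [Ideal.span_le]
      rintro a (rfl | rfl | rfl)
      · exact Ideal.mem_map_of_mem _ hxn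
      · exact Ideal.mem_map_of_mem _ hyn
      · exact Ideal.mem_map_of_mem _ hπn
  -- residue field
  have hresR : ∀ z : Localization.AtPrime n, ∃ c : O,
      z - algebraMap O (Localization.AtPrime n) c ∈ IsLocalRing.maximalIdeal (Localization.AtPrime n) := by
    intro z
    obtain ⟨b, s, hs, hzs⟩ := hsurj z
    obtain ⟨cb, hcb⟩ := hres b
    obtain ⟨cs, hcs⟩ := hres s
    have hcsu : IsUnit cs := by
      apply hOloc
      intro hdiv
      apply hs
      have h1 : algebraMap O B cs ∈ n := (hev _).mpr (by rw [AlgHom.commutes]; exact hdiv)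
      have := Ideal.add_mem _ hcs h1
      simpa using this
    obtain ⟨ucs, hucs⟩ := hcsu
    obtain ⟨u, hu⟩ := hunitR s hs
    refine ⟨cb * (ucs⁻¹ : Oˣ), ?_⟩
    have hmax0 : IsLocalRing.maximalIdeal (Localization.AtPrime n) = Ideal.map ι n :=
      (Localization.AtPrime.map_eq_maximalIdeal (I := n)).symm
    rw [hmax0]
    -- `z - c = u⁻¹ * ι (b - cb) - u⁻¹ * c' * ι (s - cs)`
    have e1 : algebraMap O (Localization.AtPrime n) (cb * (ucs⁻¹ : Oˣ))
        = ι (algebraMap O B cb) * ι (algebraMap O B ((ucs⁻¹ : Oˣ) : O)) := by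
      rw [map_mul, IsScalarTower.algebraMap_apply O B (Localization.AtPrime n),
        IsScalarTower.algebraMap_apply O B (Localization.AtPrime n) ((ucs⁻¹ : Oˣ) : O)]
    have e2 : ι (algebraMap O B cs) * ι (algebraMap O B ((ucs⁻¹ : Oˣ) : O)) = 1 := by
      rw [← map_mul, ← map_mul, ← hucs, Units.mul_inv, map_one, map_one]
    have e3 : z - algebraMap O (Localization.AtPrime n) (cb * (ucs⁻¹ : Oˣ))
        = ((u⁻¹ : (Localization.AtPrime n)ˣ) : Localization.AtPrime n) *
            (ι (b - algebraMap O B cb)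
              - ι (algebraMap O B cb) * ι (algebraMap O B ((ucs⁻¹ : Oˣ) : O))
                * ι (s - algebraMap O B cs)) := by
      rw [e1, map_sub, map_sub]
      have hu1 : ((u⁻¹ : (Localization.AtPrime n)ˣ) : Localization.AtPrime n) * ι s = 1 := by
        rw [← hu, Units.inv_mul]
      linear_combination (((u⁻¹ : (Localization.AtPrime n)ˣ) : Localization.AtPrime n)) * hzs
        + (ι (algebraMap O B cb) * ι (algebraMap O B ((ucs⁻¹ : Oˣ) : O)) - z) * hu1
        - (((u⁻¹ : (Localization.AtPrime n)ˣ) : Localization.AtPrime n)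
            * ι (algebraMap O B cb)) * e2
    rw [e3]
    refine Ideal.mul_mem_left _ _ (Ideal.sub_mem _ (Ideal.mem_map_of_mem _ hcb)
      (Ideal.mul_mem_left _ _ (Ideal.mem_map_of_mem _ hcs)))
  -- `x y ∈ π R`
  have hxyR : algebraMap O (Localization.AtPrime n) π ∣ ι x * ι y := by
    obtain ⟨s, hs, a, h⟩ := hxy
    obtain ⟨u, hu⟩ := hunitR s hs
    refine ⟨((u⁻¹ : (Localization.AtPrime n)ˣ) : Localization.AtPrime n) * ι a, ?_⟩
    have h' := congrArg ι h
    simp only [map_mul] at h'
    have hu1 : ((u⁻¹ : (Localization.AtPrime n)ˣ) : Localization.AtPrime n) * ι s = 1 := by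
      rw [← hu, Units.inv_mul]
    rw [hπR]
    linear_combination (((u⁻¹ : (Localization.AtPrime n)ˣ) : Localization.AtPrime n)) * h'
      - (ι x * ι y) * hu1
  -- the two vertical primes
  have hprime : ∀ (q : Ideal B) (t t' : B), q.IsPrime → q ≤ n → t ∈ q → algebraMap O B π ∈ q →
      t' ∉ q → (∀ b ∈ q, ∃ s ∉ n, ∃ a1 a2 : B, s * b = a1 * t + a2 * algebraMap O B π) →
      (span {ι t, algebraMap O (Localization.AtPrime n) π} : Ideal (Localization.AtPrime n)).IsPrime
        ∧ ι t' ∉ (span {ι t, algebraMap O (Localization.AtPrime n) π} :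
            Ideal (Localization.AtPrime n)) := by
    intro q t t' hq hqn htq hπq ht'q hgenq
    have hdisj : Disjoint (n.primeCompl : Set B) (q : Set B) := by
      rw [Set.disjoint_left]
      intro a ha haq
      exact ha (hqn haq)
    have hmap : (span {ι t, algebraMap O (Localization.AtPrime n) π} :
        Ideal (Localization.AtPrime n)) = Ideal.map ι q := by
      rw [hπR]
      apply le_antisymm
      · rw [Ideal.span_le]
        rintro a (rfl | rfl)
        · exact Ideal.mem_map_of_mem _ htq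
        · exact Ideal.mem_map_of_mem _ hπq
      · rw [Ideal.map_le_iff_le_comap]
        intro b hb
        obtain ⟨s, hs, a1, a2, h⟩ := hgenq b hb
        rw [Ideal.mem_comap]
        obtain ⟨u, hu⟩ := hunitR s hs
        have h' : ι b = (u⁻¹ : (Localization.AtPrime n)ˣ) *
            (ι a1 * ι t + ι a2 * ι (algebraMap O B π)) := by
          have := congrArg ι h
          simp only [map_mul, map_add] at this
          rw [← this, ← hu, ← mul_assoc, Units.inv_mul, one_mul]
        rw [h']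
        refine Ideal.mul_mem_left _ _ (Ideal.add_mem _ ?_ ?_)
        · exact Ideal.mul_mem_left _ _ (Ideal.subset_span (by simp))
        · exact Ideal.mul_mem_left _ _ (Ideal.subset_span (by simp))
    rw [hmap]
    refine ⟨IsLocalization.isPrime_of_isPrime_disjoint n.primeCompl _ q hq hdisj, ?_⟩
    intro hmem
    apply ht'q
    have h1 := IsLocalization.under_map_of_isPrime_disjoint n.primeCompl
      (Localization.AtPrime n) hq hdisj
    rw [← h1]
    exact hmem
  obtain ⟨hq1R, hx1R⟩ := hprime q1 y x hq1 hq1n hyq1 hπq1 hxq1 hgen1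
  obtain ⟨hq2R, hy2R⟩ := hprime q2 x y hq2 hq2n hxq2 hπq2 hyq2 hgen2
  -- the point
  have hPx : π ∣ P (ι x) := by rw [hP]; exact (hev x).mp hxn
  have hPy : π ∣ P (ι y) := by rw [hP]; exact (hev y).mp hyn
  have hPz : ∀ z : Localization.AtPrime n, ∀ b s : B, s ∉ n → z * ι s = ι b → P z = 0 →
      ev b = 0 := by
    intro z b s _ hzs hz
    have := congrArg P hzs
    rw [map_mul, hz, zero_mul, hP] at this
    exact this.symm
  have hregR : ∀ z : Localization.AtPrime n, P z = 0 → ι ϖ ∣ ι r * z := by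
    intro z hz
    obtain ⟨b, s, hs, hzs⟩ := hsurj z
    have hb := hPz z b s hs hzs hz
    obtain ⟨s1, hs1, g, hg⟩ := hreg b hb
    obtain ⟨u, hu⟩ := hunitR s hs
    obtain ⟨u1, hu1⟩ := hunitR s1 hs1
    refine ⟨((u⁻¹ : (Localization.AtPrime n)ˣ) : Localization.AtPrime n) *
      ((u1⁻¹ : (Localization.AtPrime n)ˣ) : Localization.AtPrime n) * ι g, ?_⟩
    have hg' := congrArg ι hg
    simp only [map_mul] at hg'
    have hui : ((u⁻¹ : (Localization.AtPrime n)ˣ) : Localization.AtPrime n) * ι s = 1 := by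
      rw [← hu, Units.inv_mul]
    have hu1i : ((u1⁻¹ : (Localization.AtPrime n)ˣ) : Localization.AtPrime n) * ι s1 = 1 := by
      rw [← hu1, Units.inv_mul]
    linear_combination
      (((u⁻¹ : (Localization.AtPrime n)ˣ) : Localization.AtPrime n) *
        ((u1⁻¹ : (Localization.AtPrime n)ˣ) : Localization.AtPrime n)) * hg'
      + (((u⁻¹ : (Localization.AtPrime n)ˣ) : Localization.AtPrime n) *
        ((u1⁻¹ : (Localization.AtPrime n)ˣ) : Localization.AtPrime n) * ι s1 * ι r) * hzs
      - (ι r * z * ((u1⁻¹ : (Localization.AtPrime n)ˣ) : Localization.AtPrime n) * ι s1) * hui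
      - (ι r * z) * hu1i
  obtain ⟨d, i, hPd, hdiv, -⟩ := h23_node_lp_aux (R := Localization.AtPrime n) π hπ hsep
    (ι x) (ι y) hmax hresR hxyR hq1R hx1R hq2R hy2R P hPx hPy (ι ϖ) (ι r)
    (by rw [hP]; exact hϖ) (by rw [hP]; exact hr) hregR
  obtain ⟨d0, s0, hs0, hds0⟩ := hsurj d
  have hd0 : ev d0 = 0 := hPz d d0 s0 hs0 hds0 hPd
  obtain ⟨u0, hu0⟩ := hunitR s0 hs0
  -- divisibility in `B`
  have hdivB : ∀ z : B, ev z = 0 →
      ∃ s ∉ n, ∃ g : B, s * (algebraMap O B π ^ i * z) = d0 * g := by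
    intro z hz
    obtain ⟨g', hg'⟩ := hdiv (ι z) (by rw [hP]; exact hz)
    obtain ⟨g, s, hs, hgs⟩ := hsurj g'
    refine ⟨s0 * s, fun h => (hn.mem_or_mem h).elim hs0 hs, g, hinj ?_⟩
    simp only [map_mul, map_pow]
    rw [hπR] at hg'
    rw [← hds0, ← hgs]
    linear_combination (ι s0 * ι s) * hg'
  refine ⟨d0, i, ?_, hd0, hdivB⟩
  -- `d0 ≠ 0`
  intro h0
  apply hxq1
  have hx0 : ev (x - algebraMap O B (ev x)) = 0 := by simp
  obtain ⟨s, hs, g, hg⟩ := hdivB _ hx0
  rw [h0, zero_mul] at hg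
  have hπB : algebraMap O B π ≠ 0 := by
    intro h
    apply hπ
    have := congrArg ev h
    simpa using this
  have hsne : s ≠ 0 := fun h => hs (h ▸ n.zero_mem)
  have hx' : x - algebraMap O B (ev x) = 0 := by
    rcases mul_eq_zero.mp hg with h | h
    · exact absurd h hsne
    · rcases mul_eq_zero.mp h with h | h
      · exact absurd (eq_zero_of_pow_eq_zero h) hπB
      · exact h
  have hx'' : x = algebraMap O B (ev x) := sub_eq_zero.mp hx'
  obtain ⟨c, hc⟩ := (hev x).mp hxn
  rw [hx'', hc, map_mul]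
  exact Ideal.mul_mem_right _ _ hπq1

end Chart

end Fermat.Agent.S34x.Node.H23
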