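/-
helper23, W10 (S34): at a crossing point every horizontal prime has height one, hence (the chart
being integrally closed) its localisation is a DVR: (REG_P) is automatic. Mathlib only
(Krull's principal ideal theorem).
-/
import Fermat.Agent.S34x.Node.H23_NodeChart

set_option linter.style.haveILetI false

namespace Fermat.Agent.S34x.Node.H23

open Ideal

section Height

variable {R : Type*} [CommRing R] [IsNoetherianRing R]

/-- **No prime strictly between** `𝔞` and `𝔟`, if `𝔟` is the only prime containing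
`𝔞` and `g` inside `𝔟` (Krull's principal ideal theorem in `R ⧸ 𝔞`). -/
theorem h23_no_between (𝔞 𝔟 𝔠 : Ideal R) [h𝔞 : 𝔞.IsPrime] [h𝔟 : 𝔟.IsPrime] [h𝔠 : 𝔠.IsPrime]
    (g : R) (hg : g ∈ 𝔟)
    (hmin : ∀ 𝔓 : Ideal R, 𝔓.IsPrime → 𝔞 ≤ 𝔓 → g ∈ 𝔓 → 𝔓 ≤ 𝔟 → 𝔟 ≤ 𝔓)
    (h1 : 𝔞 < 𝔠) (h2 : 𝔠 < 𝔟) : False := by
  have hsurj : Function.Surjective (Ideal.Quotient.mk 𝔞) := Ideal.Quotient.mk_surjective
  have hker : ∀ 𝔓 : Ideal R, 𝔞 ≤ 𝔓 → RingHom.ker (Ideal.Quotient.mk 𝔞) ≤ 𝔓 := by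
    intro 𝔓 h
    rw [Ideal.mk_ker]; exact h
  have hcm : ∀ 𝔓 : Ideal R, 𝔞 ≤ 𝔓 →
      (𝔓.map (Ideal.Quotient.mk 𝔞)).comap (Ideal.Quotient.mk 𝔞) = 𝔓 := by
    intro 𝔓 h
    rw [Ideal.comap_map_of_surjective _ hsurj, ← RingHom.ker_eq_comap_bot, Ideal.mk_ker]
    exact sup_eq_left.mpr h
  have h𝔟' : (𝔟.map (Ideal.Quotient.mk 𝔞)).IsPrime :=
    Ideal.map_isPrime_of_surjective hsurj (hker 𝔟 (h1.le.trans h2.le))
  have h𝔠' : (𝔠.map (Ideal.Quotient.mk 𝔞)).IsPrime :=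
    Ideal.map_isPrime_of_surjective hsurj (hker 𝔠 h1.le)
  have : IsDomain (R ⧸ 𝔞) := Ideal.Quotient.isDomain 𝔞
  -- `𝔟'` is minimal over `(g')`
  have hmem : 𝔟.map (Ideal.Quotient.mk 𝔞) ∈
      (Ideal.span {Ideal.Quotient.mk 𝔞 g} : Ideal (R ⧸ 𝔞)).minimalPrimes := by
    refine ⟨⟨h𝔟', ?_⟩, ?_⟩
    · rw [Ideal.span_le, Set.singleton_subset_iff]
      exact Ideal.mem_map_of_mem _ hg
    · rintro 𝔓' ⟨h𝔓', hg𝔓'⟩ hle
      have hg' : Ideal.Quotient.mk 𝔞 g ∈ 𝔓' := hg𝔓' (Ideal.subset_span (by simp))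
      have h𝔓 : (𝔓'.comap (Ideal.Quotient.mk 𝔞)).IsPrime := Ideal.comap_isPrime _ _
      have ha : 𝔞 ≤ 𝔓'.comap (Ideal.Quotient.mk 𝔞) := by
        intro a ha
        rw [Ideal.mem_comap, Ideal.Quotient.eq_zero_iff_mem.mpr ha]
        exact 𝔓'.zero_mem
      have hle' : 𝔓'.comap (Ideal.Quotient.mk 𝔞) ≤ 𝔟 := by
        have := Ideal.comap_mono (f := Ideal.Quotient.mk 𝔞) hle
        rwa [hcm 𝔟 (h1.le.trans h2.le)] at this
      have := hmin _ h𝔓 ha hg' hle'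
      have h3 := Ideal.map_mono (f := Ideal.Quotient.mk 𝔞) this
      rwa [Ideal.map_comap_of_surjective _ hsurj] at h3
  have hht := Ideal.height_le_one_of_isPrincipal_of_mem_minimalPrimes _ _ hmem
  -- the chain `⊥ < 𝔠' < 𝔟'`
  have hlt : 𝔠.map (Ideal.Quotient.mk 𝔞) < 𝔟.map (Ideal.Quotient.mk 𝔞) := by
    refine lt_of_le_of_ne (Ideal.map_mono h2.le) ?_
    intro h
    have := congrArg (Ideal.comap (Ideal.Quotient.mk 𝔞)) h
    rw [hcm 𝔠 h1.le, hcm 𝔟 (h1.le.trans h2.le)] at this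
    exact h2.ne this
  have hne : 𝔠.map (Ideal.Quotient.mk 𝔞) ≠ ⊥ := by
    intro h
    have := congrArg (Ideal.comap (Ideal.Quotient.mk 𝔞)) h
    rw [hcm 𝔠 h1.le, ← RingHom.ker_eq_comap_bot, Ideal.mk_ker] at this
    exact h1.ne this.symm
  have h4 := Ideal.height_add_one_le_of_lt_of_isPrime hlt
  have h5 : (𝔠.map (Ideal.Quotient.mk 𝔞)).height ≠ 0 := by
    rw [Ne, Ideal.height_eq_zero_iff_eq_bot]
    exact hne
  have h6 : (𝔠.map (Ideal.Quotient.mk 𝔞)).height + 1 ≤ 1 := h4.trans hht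
  have h7 : (𝔠.map (Ideal.Quotient.mk 𝔞)).height = 0 := by
    generalize (𝔠.map (Ideal.Quotient.mk 𝔞)).height = t at h6
    induction t using ENat.recTopCoe with
    | top => simp at h6
    | coe n =>
      have h8 : n + 1 ≤ 1 := by exact_mod_cast h6
      have h9 : n = 0 := by omega
      simp [h9]
  exact h5 h7

end Height

section NodeHeight

variable {B : Type*} [CommRing B] [IsDomain B] [IsNoetherianRing B]

/-- **Height one at a crossing point**: with the node data at `n` in element form (the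
conclusion of `h8_goursat_elem`), there is no prime strictly between `⊥` and a horizontal prime
`p ≤ n` (`π ∉ p`). -/
theorem h23_node_height_one (n : Ideal B) [hn : n.IsPrime] (π : B) (x y : B)
    (hπn : π ∈ n)
    (hgen : ∀ b ∈ n, ∃ s ∉ n, ∃ a1 a2 a3 : B, s * b = a1 * x + a2 * y + a3 * π)
    (hxy : ∃ s ∉ n, ∃ a : B, s * (x * y) = π * a)
    (q1 q2 : Ideal B) [hq1 : q1.IsPrime] [hq2 : q2.IsPrime] (hq1n : q1 ≤ n) (hq2n : q2 ≤ n)
    (hyq1 : y ∈ q1) (hπq1 : π ∈ q1) (hxq1 : x ∉ q1)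
    (hgen1 : ∀ b ∈ q1, ∃ s ∉ n, ∃ a1 a2 : B, s * b = a1 * y + a2 * π)
    (hxq2 : x ∈ q2) (hπq2 : π ∈ q2) (hyq2 : y ∉ q2)
    (hgen2 : ∀ b ∈ q2, ∃ s ∉ n, ∃ a1 a2 : B, s * b = a1 * x + a2 * π)
    (p p' : Ideal B) [hp : p.IsPrime] [hp' : p'.IsPrime] (hpn : p ≤ n) (hπp : π ∉ p)
    (h1 : ⊥ < p') (h2 : p' < p) : False := by
  have hbot : (⊥ : Ideal B).IsPrime := Ideal.isPrime_bot
  -- a prime inside `n` containing `x, y, π` is `n`
  have hall : ∀ 𝔓 : Ideal B, 𝔓.IsPrime → 𝔓 ≤ n → x ∈ 𝔓 → y ∈ 𝔓 → π ∈ 𝔓 → n ≤ 𝔓 := by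
    intro 𝔓 h𝔓 hle hx hy hπ b hb
    obtain ⟨s, hs, a1, a2, a3, h⟩ := hgen b hb
    have : s * b ∈ 𝔓 := by
      rw [h]
      exact Ideal.add_mem _ (Ideal.add_mem _ (Ideal.mul_mem_left _ _ hx)
        (Ideal.mul_mem_left _ _ hy)) (Ideal.mul_mem_left _ _ hπ)
    exact (h𝔓.mem_or_mem this).resolve_left (fun h => hs (hle h))
  -- a prime inside `n` containing `π` contains `q1` or `q2`
  have hπ12 : ∀ 𝔓 : Ideal B, 𝔓.IsPrime → 𝔓 ≤ n → π ∈ 𝔓 → q1 ≤ 𝔓 ∨ q2 ≤ 𝔓 := by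
    intro 𝔓 h𝔓 hle hπ
    obtain ⟨s, hs, a, h⟩ := hxy
    have h3 : s * (x * y) ∈ 𝔓 := by rw [h]; exact Ideal.mul_mem_right _ _ hπ
    have h4 : x * y ∈ 𝔓 := (h𝔓.mem_or_mem h3).resolve_left (fun h => hs (hle h))
    rcases h𝔓.mem_or_mem h4 with hx | hy
    · right
      intro b hb
      obtain ⟨s', hs', a1, a2, h'⟩ := hgen2 b hb
      have : s' * b ∈ 𝔓 := by
        rw [h']
        exact Ideal.add_mem _ (Ideal.mul_mem_left _ _ hx) (Ideal.mul_mem_left _ _ hπ)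
      exact (h𝔓.mem_or_mem this).resolve_left (fun h => hs' (hle h))
    · left
      intro b hb
      obtain ⟨s', hs', a1, a2, h'⟩ := hgen1 b hb
      have : s' * b ∈ 𝔓 := by
        rw [h']
        exact Ideal.add_mem _ (Ideal.mul_mem_left _ _ hy) (Ideal.mul_mem_left _ _ hπ)
      exact (h𝔓.mem_or_mem this).resolve_left (fun h => hs' (hle h))
  have hxn : x ∈ n := hq2n hxq2
  have hyn : y ∈ n := hq1n hyq1
  -- no prime strictly between `q1` and `n`, nor between `q2` and `n`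
  have hq1max : ∀ 𝔓 : Ideal B, 𝔓.IsPrime → q1 ≤ 𝔓 → 𝔓 ≤ n → 𝔓 = q1 ∨ 𝔓 = n := by
    intro 𝔓 h𝔓 h1' h2'
    by_contra hcon
    rw [not_or] at hcon
    haveI := h𝔓
    exact h23_no_between q1 n 𝔓 x hxn
      (fun 𝔔 h𝔔 hq hx hle => hall 𝔔 h𝔔 hle hx (hq hyq1) (hq hπq1))
      (lt_of_le_of_ne h1' (Ne.symm hcon.1)) (lt_of_le_of_ne h2' hcon.2)
  have hq2max : ∀ 𝔓 : Ideal B, 𝔓.IsPrime → q2 ≤ 𝔓 → 𝔓 ≤ n → 𝔓 = q2 ∨ 𝔓 = n := by
    intro 𝔓 h𝔓 h1' h2'
    by_contra hcon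
    rw [not_or] at hcon
    haveI := h𝔓
    exact h23_no_between q2 n 𝔓 y hyn
      (fun 𝔔 h𝔔 hq hy hle => hall 𝔔 h𝔔 hle (hq hxq2) hy (hq hπq2))
      (lt_of_le_of_ne h1' (Ne.symm hcon.1)) (lt_of_le_of_ne h2' hcon.2)
  -- no prime strictly between `⊥` and `q1`, nor `q2`
  have hq1min : ∀ 𝔓 : Ideal B, 𝔓.IsPrime → ⊥ < 𝔓 → 𝔓 < q1 → False := by
    intro 𝔓 h𝔓 h1' h2'
    haveI := h𝔓
    refine h23_no_between ⊥ q1 𝔓 π hπq1 (fun 𝔔 h𝔔 _ hπ hle => ?_) h1' h2'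
    rcases hπ12 𝔔 h𝔔 (hle.trans hq1n) hπ with h | h
    · exact h
    · exact absurd (hle (h hxq2)) hxq1
  have hq2min : ∀ 𝔓 : Ideal B, 𝔓.IsPrime → ⊥ < 𝔓 → 𝔓 < q2 → False := by
    intro 𝔓 h𝔓 h1' h2'
    haveI := h𝔓
    refine h23_no_between ⊥ q2 𝔓 π hπq2 (fun 𝔔 h𝔔 _ hπ hle => ?_) h1' h2'
    rcases hπ12 𝔔 h𝔔 (hle.trans hq2n) hπ with h | h
    · exact absurd (hle (h hyq1)) hyq2
    · exact h
  -- the main step
  have hπp' : π ∉ p' := fun h => hπp (h2.le h)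
  refine h23_no_between p' n p π hπn (fun 𝔔 h𝔔 hp'𝔔 hπ hle => ?_) h2
    (lt_of_le_of_ne hpn (fun h => hπp (h ▸ hπn)))
  rcases hπ12 𝔔 h𝔔 hle hπ with h | h
  · rcases hq1max 𝔔 h𝔔 h hle with h' | h'
    · exfalso
      rw [h'] at hp'𝔔
      exact hq1min p' hp' h1 (lt_of_le_of_ne hp'𝔔 (fun h => hπp' (h ▸ hπq1)))
    · exact h'.ge
  · rcases hq2max 𝔔 h𝔔 h hle with h' | h'
    · exfalso
      rw [h'] at hp'𝔔
      exact hq2min p' hp' h1 (lt_of_le_of_ne hp'𝔔 (fun h => hπp' (h ▸ hπq2)))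
    · exact h'.ge


/-- uniform denominator: if every element of a finitely generated prime `I` is divisible by `ϖ`
after multiplication by some `r ∉ I`, one `r` works for all. -/
theorem h23_uniform (I : Ideal B) [hI : I.IsPrime] (ϖ : B)
    (h : ∀ z ∈ I, ∃ r ∉ I, ϖ ∣ r * z) : ∃ r ∉ I, ∀ z ∈ I, ϖ ∣ r * z := by
  classical
  obtain ⟨S, hS⟩ := (isNoetherianRing_iff_ideal_fg B).mp ‹_› I
  have hSI : ∀ s ∈ S, s ∈ I := fun s hs => hS ▸ Ideal.subset_span hs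
  -- choose the denominators
  have hch : ∀ s : B, ∃ r : B, r ∉ I ∧ (s ∈ S → ϖ ∣ r * s) := by
    intro s
    by_cases hs : s ∈ S
    · obtain ⟨r, hr, hd⟩ := h s (hSI s hs)
      exact ⟨r, hr, fun _ => hd⟩
    · exact ⟨1, fun h1 => hI.ne_top ((Ideal.eq_top_iff_one I).mpr h1), fun h => absurd h hs⟩
  choose r hr hd using hch
  refine ⟨∏ s ∈ S, r s, ?_, ?_⟩
  · intro hmem
    obtain ⟨s, _, hs⟩ := (hI.prod_mem_iff).mp hmem
    exact hr s hs
  · intro z hz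
    rw [← hS] at hz
    refine Submodule.span_induction (p := fun z _ => ϖ ∣ (∏ s ∈ S, r s) * z) ?_ ?_ ?_ ?_ hz
    · intro s hs
      have hs' : s ∈ S := hs
      rw [← Finset.mul_prod_erase S r hs', mul_right_comm]
      exact Dvd.dvd.mul_right (hd s hs') _
    · simp
    · intro a b _ _ ha hb
      rw [mul_add]
      exact dvd_add ha hb
    · intro c a _ ha
      rw [smul_eq_mul, mul_left_comm]
      exact Dvd.dvd.mul_left ha _

/-- **DVR at a horizontal prime through a crossing point** (element form): if `B` is integrally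
closed, a non-zero prime `p ≤ n` with `π ∉ p` is principal after inverting ONE element outside
`p`: `ϖ ∈ p`, `r ∉ p`, `r p ⊆ ϖ B`. -/
theorem h23_node_dvr [IsIntegrallyClosed B] (n : Ideal B) [hn : n.IsPrime] (π : B) (x y : B)
    (hπn : π ∈ n)
    (hgen : ∀ b ∈ n, ∃ s ∉ n, ∃ a1 a2 a3 : B, s * b = a1 * x + a2 * y + a3 * π)
    (hxy : ∃ s ∉ n, ∃ a : B, s * (x * y) = π * a)
    (q1 q2 : Ideal B) [hq1 : q1.IsPrime] [hq2 : q2.IsPrime] (hq1n : q1 ≤ n) (hq2n : q2 ≤ n)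
    (hyq1 : y ∈ q1) (hπq1 : π ∈ q1) (hxq1 : x ∉ q1)
    (hgen1 : ∀ b ∈ q1, ∃ s ∉ n, ∃ a1 a2 : B, s * b = a1 * y + a2 * π)
    (hxq2 : x ∈ q2) (hπq2 : π ∈ q2) (hyq2 : y ∉ q2)
    (hgen2 : ∀ b ∈ q2, ∃ s ∉ n, ∃ a1 a2 : B, s * b = a1 * x + a2 * π)
    (p : Ideal B) [hp : p.IsPrime] (hpn : p ≤ n) (hπp : π ∉ p) (hp0 : p ≠ ⊥) :
    ∃ ϖ ∈ p, ∃ r ∉ p, ∀ z ∈ p, ϖ ∣ r * z := by
  classical
  have hle : p.primeCompl ≤ nonZeroDivisors B := by
    intro s hs
    exact mem_nonZeroDivisors_of_ne_zero (fun h => hs (h ▸ p.zero_mem))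
  have : IsDomain (Localization.AtPrime p) := IsLocalization.isDomain_localization hle
  have : IsNoetherianRing (Localization.AtPrime p) :=
    IsLocalization.isNoetherianRing p.primeCompl _ inferInstance
  have : IsIntegrallyClosed (Localization.AtPrime p) :=
    isIntegrallyClosed_of_isLocalization (Localization.AtPrime p) p.primeCompl hle
  have hinj : Function.Injective (algebraMap B (Localization.AtPrime p)) :=
    IsLocalization.injective _ hle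
  set ι := algebraMap B (Localization.AtPrime p) with hι
  have hmax0 : IsLocalRing.maximalIdeal (Localization.AtPrime p) = Ideal.map ι p :=
    (Localization.AtPrime.map_eq_maximalIdeal (I := p)).symm
  have hcomap : (IsLocalRing.maximalIdeal (Localization.AtPrime p)).comap ι = p :=
    Localization.AtPrime.under_maximalIdeal (I := p)
  have hunitR : ∀ s : B, s ∉ p → IsUnit (ι s) := fun s hs =>
    IsLocalization.map_units (Localization.AtPrime p) (⟨s, hs⟩ : p.primeCompl)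
  have hsurj : ∀ z : Localization.AtPrime p, ∃ b s : B, s ∉ p ∧ z * ι s = ι b := by
    intro z
    obtain ⟨b, s, hbs⟩ := IsLocalization.exists_mk'_eq p.primeCompl z
    exact ⟨b, s, s.2, by rw [← hbs]; exact IsLocalization.mk'_spec _ _ _⟩
  -- not a field
  have hnf : ¬ IsField (Localization.AtPrime p) := by
    rw [IsLocalRing.isField_iff_maximalIdeal_eq, hmax0]
    intro h
    apply hp0
    rw [eq_bot_iff]
    intro z hz
    have : ι z ∈ Ideal.map ι p := Ideal.mem_map_of_mem _ hz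
    rw [h, Ideal.mem_bot] at this
    rw [Ideal.mem_bot]
    exact hinj (by rw [this, map_zero])
  -- unique non-zero prime
  have huniq : ∃! P : Ideal (Localization.AtPrime p), P ≠ ⊥ ∧ P.IsPrime := by
    refine ⟨IsLocalRing.maximalIdeal _, ⟨?_, inferInstance⟩, ?_⟩
    · intro h
      exact hnf ((IsLocalRing.isField_iff_maximalIdeal_eq).mpr h)
    · rintro P ⟨hP0, hP⟩
      have hPc : (P.comap ι).IsPrime := Ideal.comap_isPrime _ _
      have hPle : P.comap ι ≤ p := by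
        have := Ideal.comap_mono (f := ι) (IsLocalRing.le_maximalIdeal hP.ne_top)
        rwa [hcomap] at this
      have hmc : Ideal.map ι (P.comap ι) = P := IsLocalization.map_under p.primeCompl _ P
      have hPc0 : ⊥ < P.comap ι := by
        rw [bot_lt_iff_ne_bot]
        intro h
        apply hP0
        rw [← hmc, h, Ideal.map_bot]
      have hPeq : P.comap ι = p := by
        by_contra hne
        exact h23_node_height_one n π x y hπn hgen hxy q1 q2 hq1n hq2n hyq1 hπq1 hxq1 hgen1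
          hxq2 hπq2 hyq2 hgen2 p (P.comap ι) hpn hπp hPc0 (lt_of_le_of_ne hPle hne)
      rw [← hmc, hPeq, hmax0]
  have htfae := (IsDiscreteValuationRing.TFAE (Localization.AtPrime p) hnf).out 3 4
  have hprin : (IsLocalRing.maximalIdeal (Localization.AtPrime p)).IsPrincipal :=
    htfae.mp (And.intro inferInstance huniq)
  obtain ⟨g, hg⟩ := hprin.principal
  obtain ⟨a, s, hs, hgs⟩ := hsurj g
  obtain ⟨us, hus⟩ := hunitR s hs
  -- `ι a` generates the maximal ideal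
  have hgen' : IsLocalRing.maximalIdeal (Localization.AtPrime p) = Ideal.span {ι a} := by
    rw [hg, ← hgs]
    apply le_antisymm
    · rw [Submodule.span_singleton_le_iff_mem]
      exact Ideal.mem_span_singleton.mpr ⟨((us⁻¹ : (Localization.AtPrime p)ˣ) : _), by
        rw [← hus]; simp [mul_assoc]⟩
    · rw [Ideal.span_le, Set.singleton_subset_iff]
      exact Ideal.mul_mem_right _ _ (Ideal.subset_span (by simp))
  have hap : a ∈ p := by
    rw [← hcomap, Ideal.mem_comap, hgen']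
    exact Ideal.subset_span (by simp)
  refine ⟨a, hap, h23_uniform p a ?_⟩
  intro z hz
  have hz' : ι z ∈ Ideal.span {ι a} := by
    rw [← hgen', hmax0]
    exact Ideal.mem_map_of_mem _ hz
  obtain ⟨w, hw⟩ := Ideal.mem_span_singleton.mp hz'
  obtain ⟨b, r, hr, hwr⟩ := hsurj w
  refine ⟨r, hr, b, hinj ?_⟩
  rw [map_mul, map_mul, hw, ← hwr]
  ring

end NodeHeight


section Final

variable {O B : Type*} [CommRing O] [IsDomain O] [CommRing B] [IsDomain B] [IsNoetherianRing B]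
  [IsIntegrallyClosed B] [Algebra O B]

/-- **(LP) at a crossing point, chart form, WITHOUT (REG_P)**: `h23_node_lp` for an integrally
closed chart `B`; the regularity of the point on the generic fibre is automatic
(`h23_node_dvr`). -/
theorem h23_node_lp' (n : Ideal B) [hn : n.IsPrime] (π : O) (hπ : π ≠ 0)
    (hsep : ∀ c : O, c ≠ 0 → ∃ N : ℕ, ¬ π ^ N ∣ c)
    (hOloc : ∀ c : O, ¬ π ∣ c → IsUnit c)
    (x y : B)
    (hxn : x ∈ n) (hyn : y ∈ n) (hπn : algebraMap O B π ∈ n)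
    (hgen : ∀ b ∈ n, ∃ s ∉ n, ∃ a1 a2 a3 : B, s * b = a1 * x + a2 * y + a3 * algebraMap O B π)
    (hres : ∀ b : B, ∃ c : O, b - algebraMap O B c ∈ n)
    (hxy : ∃ s ∉ n, ∃ a : B, s * (x * y) = algebraMap O B π * a)
    (q1 q2 : Ideal B) [hq1 : q1.IsPrime] [hq2 : q2.IsPrime] (hq1n : q1 ≤ n) (hq2n : q2 ≤ n)
    (hyq1 : y ∈ q1) (hπq1 : algebraMap O B π ∈ q1) (hxq1 : x ∉ q1)
    (hgen1 : ∀ b ∈ q1, ∃ s ∉ n, ∃ a1 a2 : B, s * b = a1 * y + a2 * algebraMap O B π)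
    (hxq2 : x ∈ q2) (hπq2 : algebraMap O B π ∈ q2) (hyq2 : y ∉ q2)
    (hgen2 : ∀ b ∈ q2, ∃ s ∉ n, ∃ a1 a2 : B, s * b = a1 * x + a2 * algebraMap O B π)
    (ev : B →ₐ[O] O) (hev : ∀ b : B, b ∈ n ↔ π ∣ ev b) :
    ∃ (d : B) (i : ℕ), d ≠ 0 ∧ ev d = 0 ∧
      ∀ z : B, ev z = 0 → ∃ s ∉ n, ∃ g : B, s * (algebraMap O B π ^ i * z) = d * g := by
  have hp : (RingHom.ker (ev : B →+* O)).IsPrime := RingHom.ker_isPrime _
  have hpn : RingHom.ker (ev : B →+* O) ≤ n := by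
    intro z hz
    rw [RingHom.mem_ker] at hz
    exact (hev z).mpr (by rw [show ev z = 0 from hz]; exact dvd_zero _)
  have hπp : algebraMap O B π ∉ RingHom.ker (ev : B →+* O) := by
    rw [RingHom.mem_ker]
    show ev (algebraMap O B π) ≠ 0
    rw [AlgHom.commutes]
    exact hπ
  have hp0 : RingHom.ker (ev : B →+* O) ≠ ⊥ := by
    intro h
    apply hxq1
    have hmem : x - algebraMap O B (ev x) ∈ RingHom.ker (ev : B →+* O) := by
      rw [RingHom.mem_ker]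
      show ev (x - algebraMap O B (ev x)) = 0
      simp
    rw [h, Ideal.mem_bot] at hmem
    obtain ⟨c, hc⟩ := (hev x).mp hxn
    rw [sub_eq_zero.mp hmem, hc, map_mul]
    exact Ideal.mul_mem_right _ _ hπq1
  obtain ⟨ϖ, hϖ, r, hr, hdiv⟩ := h23_node_dvr n (algebraMap O B π) x y hπn hgen hxy q1 q2
    hq1n hq2n hyq1 hπq1 hxq1 hgen1 hxq2 hπq2 hyq2 hgen2 (RingHom.ker (ev : B →+* O)) hpn hπp hp0
  refine h23_node_lp n π hπ hsep hOloc x y hxn hyn hπn hgen hres hxy q1 q2 hq1n hq2n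
    hyq1 hπq1 hxq1 hgen1 hxq2 hπq2 hyq2 hgen2 ev hev ϖ r (RingHom.mem_ker.mp hϖ)
    (fun h => hr (RingHom.mem_ker.mpr h)) ?_
  intro z hz
  obtain ⟨g, hg⟩ := hdiv z (RingHom.mem_ker.mpr hz)
  exact ⟨1, fun h => hn.ne_top ((Ideal.eq_top_iff_one n).mpr h), g, by rw [one_mul, hg]⟩

end Final

end Fermat.Agent.S34x.Node.H23
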